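/-
P-S19, FINAL ASSEMBLY of stage 1 (helper21).

`ATarget`  : what BLOCK A (geometry, `S19x/Geo/**`) delivers: integral local charts
             (`S19x.LocalChartData`) on every finite Galois-stable `ℓ`-power-torsion subgroup of
             `J₀(M)(ℚ̄)`, `M` a good level prime to `ℓ`, at every place `P` of `ℚ̄` over `ℓ`;
`ChartToFFPoints` (in `S19x/Iface.lean`) : what BLOCK B (algebra, `S19x/Alg/**`) delivers.

`s19_of_blocks hA hB` : the finite flat model of `J₀(p)[ℓ^k]` over `ℤ_(ℓ)`, `ℓ ∤ p`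
(statement S19), by pulling `J₀(p)[ℓ^k]` back to the good level `M = lcm p 4` (`lcm p 9` for
`ℓ = 2`) along the injective Galois-equivariant `Gateway.Descent.pullbackPic`, and transporting
back with `IsFFPoints.transport`.  Finiteness of the torsion: `Gateway.Export.card_tors`;
open stabilisers: `Gateway.S31Red.exists_level_fixing_point`.
-/
import Mathlib
import Fermat.Agent.S19x.Iface
import Fermat.Agent.Gateway.Red.Assembly
import Fermat.Agent.Gateway.Descent.PicIncl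
import Fermat.Agent.Gateway.Export.Core
import Fermat.Agent.Gateway.S31.GalLevel
import Fermat.Agent.Lib.FrobeniusExists

set_option autoImplicit false
set_option linter.unusedSectionVars false
set_option linter.style.haveILetI false

noncomputable section

namespace Fermat.Agent.S19x.Final

open ModularCurve AlgebraicCurve
open Fermat.Agent.S56x.Dict.FFPoints

local notation "Qbar" => AlgebraicClosure ℚ
local notation "Γℚ" => (AlgebraicClosure ℚ ≃ₐ[ℚ] AlgebraicClosure ℚ)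

/-- **What BLOCK A proves** (`S19x/Geo/Assemble.lean`): at a good level `M` prime to `ℓ` and a place
`P` of `ℚ̄` over `ℓ`, every finite Galois-stable subgroup `T` of `J₀(M)(ℚ̄)` killed by `ℓ ^ k`
carries integral local charts (for the restricted Galois action). -/
def ATarget : Prop :=
  ∀ (M : ℕ) [NeZero M] (ℓ : ℕ) [Fact ℓ.Prime], ¬ ℓ ∣ M → Fermat.Agent.Gateway.Red.IsGoodLevel M ℓ →
    ∀ (P : ValuationSubring Qbar), P.LiesOverPrime ℓ →
    ∀ (T : AddSubgroup (JZero M)) [Finite T] (k : ℕ), (∀ x ∈ T, ℓ ^ k • x = 0) →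
    ∀ (hT : ∀ (σ : Γℚ) (x : JZero M), x ∈ T → σ • x ∈ T),
      Nonempty (LocalChartData ℓ P T (fun σ x => ⟨σ • (x : JZero M), hT σ x x.2⟩))

/-! ### Generic glue (abstract groups with a Galois action) -/

section Generic

variable {X Y : Type} [AddCommGroup X] [AddCommGroup Y]
  [DistribMulAction Γℚ X] [DistribMulAction Γℚ Y]

/-- the Galois action commutes with multiplication by a natural number. -/
theorem galois_smul_nsmul (σ : Γℚ) (n : ℕ) (x : X) : n • (σ • x) = σ • (n • x) :=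
  (map_nsmul (DistribSMul.toAddMonoidHom X σ) n x).symm

theorem mem_torsionBy_pow_iff (ℓ k : ℕ) (x : X) :
    x ∈ Submodule.torsionBy ℤ X ((ℓ : ℤ) ^ k) ↔ ℓ ^ k • x = 0 := by
  rw [Submodule.mem_torsionBy_iff, ← natCast_zsmul, Nat.cast_pow]

theorem galois_smul_mem_torsionBy (ℓ k : ℕ) (σ : Γℚ) (x : X)
    (hx : x ∈ Submodule.torsionBy ℤ X ((ℓ : ℤ) ^ k)) :
    σ • x ∈ Submodule.torsionBy ℤ X ((ℓ : ℤ) ^ k) := by
  rw [mem_torsionBy_pow_iff] at hx ⊢
  rw [galois_smul_nsmul, hx, smul_zero]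

/-- BLOCK B applied to the restricted action on a finite stable subgroup with open stabilisers. -/
theorem isFFPoints_of_chart (hB : ChartToFFPoints) (ℓ : ℕ) [Fact ℓ.Prime]
    (P : ValuationSubring Qbar) (hP : P.LiesOverPrime ℓ) (T : AddSubgroup Y) [Finite T]
    (hT : ∀ (σ : Γℚ) (x : Y), x ∈ T → σ • x ∈ T)
    (hopen : ∀ x ∈ T, ∃ L : IntermediateField ℚ Qbar, FiniteDimensional ℚ L ∧
      ∀ σ : Γℚ, (∀ a ∈ L, σ a = a) → σ • x = x)
    (D : LocalChartData ℓ P T (fun σ x => ⟨σ • (x : Y), hT σ x x.2⟩)) :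
    IsFFPoints ℓ T (fun σ x => ⟨σ • (x : Y), hT σ x x.2⟩) := by
  refine hB ℓ P hP T (fun σ x => ⟨σ • (x : Y), hT σ x x.2⟩) ?_ ?_ ?_ ?_ D
  · intro σ x y
    refine Subtype.ext ?_
    show σ • ((x + y : T) : Y) = σ • (x : Y) + σ • (y : Y)
    rw [AddSubgroup.coe_add, smul_add]
  · intro x
    exact Subtype.ext (one_smul Γℚ (x : Y))
  · intro σ τ x
    exact Subtype.ext (mul_smul σ τ (x : Y))
  · intro x
    obtain ⟨L, hL, hfix⟩ := hopen x x.2
    exact ⟨L, hL, fun σ hσ => Subtype.ext (hfix σ hσ)⟩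

/-- Transport of `IsFFPoints` back along an injective Galois-equivariant homomorphism. -/
theorem isFFPoints_of_injective (ℓ : ℕ) (φ : X →+ Y)
    (hφinj : Function.Injective φ) (hφσ : ∀ (σ : Γℚ) (x : X), φ (σ • x) = σ • φ x)
    (S : Submodule ℤ X) (hS : ∀ (σ : Γℚ) (x : X), x ∈ S → σ • x ∈ S)
    (T : AddSubgroup Y) (hTS : ∀ y : Y, y ∈ T ↔ ∃ x ∈ S, φ x = y)
    (hT : ∀ (σ : Γℚ) (x : Y), x ∈ T → σ • x ∈ T)
    (h : IsFFPoints ℓ T (fun σ x => ⟨σ • (x : Y), hT σ x x.2⟩)) :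
    IsFFPoints ℓ S (fun σ x => ⟨σ • (x : X), hS σ x x.2⟩) := by
  let ψ : S →+ T :=
    { toFun := fun x => ⟨φ x.1, (hTS _).2 ⟨x.1, x.2, rfl⟩⟩
      map_zero' := Subtype.ext (map_zero φ)
      map_add' := fun x y => Subtype.ext (map_add φ x.1 y.1) }
  have hψbij : Function.Bijective ψ := by
    refine ⟨fun x y hxy => ?_, ?_⟩
    · exact Subtype.ext (hφinj (congrArg (fun z : T => (z : Y)) hxy))
    · rintro ⟨y, hy⟩
      obtain ⟨x, hx, rfl⟩ := (hTS y).1 hy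
      exact ⟨⟨x, hx⟩, rfl⟩
  refine h.transport (AddEquiv.ofBijective ψ hψbij).symm ?_
  intro σ y
  apply (AddEquiv.ofBijective ψ hψbij).injective
  rw [AddEquiv.apply_symm_apply]
  obtain ⟨x, rfl⟩ := hψbij.2 y
  have h1 : (AddEquiv.ofBijective ψ hψbij).symm (ψ x) = x :=
    (AddEquiv.ofBijective ψ hψbij).symm_apply_apply x
  rw [h1]
  refine Subtype.ext ?_
  show σ • φ (x : X) = φ (σ • (x : X))
  rw [hφσ]

/-- The `ℓ^k`-torsion of `X` is `IsFFPoints` as soon as it is finite and embeds equivariantly in a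
`Y` all of whose finite stable subgroups killed by `ℓ^k` are. -/
theorem isFFPoints_torsionBy_of_injective (ℓ k : ℕ) (φ : X →+ Y)
    (hφinj : Function.Injective φ) (hφσ : ∀ (σ : Γℚ) (x : X), φ (σ • x) = σ • φ x)
    (hfin : Finite (Submodule.torsionBy ℤ X ((ℓ : ℤ) ^ k)))
    (hY : ∀ (T : AddSubgroup Y), Finite T → (∀ x ∈ T, ℓ ^ k • x = 0) →
      ∀ hT : ∀ (σ : Γℚ) (x : Y), x ∈ T → σ • x ∈ T,
        IsFFPoints ℓ T (fun σ x => ⟨σ • (x : Y), hT σ x x.2⟩)) :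
    IsFFPoints ℓ (Submodule.torsionBy ℤ X ((ℓ : ℤ) ^ k))
      (fun σ x => ⟨σ • (x : X), galois_smul_mem_torsionBy ℓ k σ (x : X) x.2⟩) := by
  obtain ⟨S, hS⟩ : ∃ S : Submodule ℤ X, S = Submodule.torsionBy ℤ X ((ℓ : ℤ) ^ k) := ⟨_, rfl⟩
  have hSmem : ∀ x : X, x ∈ S ↔ ℓ ^ k • x = 0 := by
    intro x
    rw [hS, mem_torsionBy_pow_iff]
  have hSσ : ∀ (σ : Γℚ) (x : X), x ∈ S → σ • x ∈ S := by
    intro σ x hx
    rw [hS] at hx ⊢
    exact galois_smul_mem_torsionBy ℓ k σ x hx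
  haveI hSfin : Finite S := hS ▸ hfin
  obtain ⟨T, hTmem⟩ : ∃ T : AddSubgroup Y, ∀ y : Y, y ∈ T ↔ ∃ x ∈ S, φ x = y :=
    ⟨AddSubgroup.map φ S.toAddSubgroup, fun y => Iff.rfl⟩
  have hTkill : ∀ y ∈ T, ℓ ^ k • y = 0 := by
    intro y hy
    obtain ⟨x, hx, rfl⟩ := (hTmem y).1 hy
    rw [← map_nsmul, (hSmem x).1 hx, map_zero]
  have hT : ∀ (σ : Γℚ) (y : Y), y ∈ T → σ • y ∈ T := by
    intro σ y hy
    obtain ⟨x, hx, rfl⟩ := (hTmem y).1 hy
    exact (hTmem _).2 ⟨σ • x, hSσ σ x hx, hφσ σ x⟩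
  have hTfin : Finite T := by
    have hsurj : Function.Surjective
        (fun x : S => (⟨φ x.1, (hTmem _).2 ⟨x.1, x.2, rfl⟩⟩ : T)) := by
      rintro ⟨y, hy⟩
      obtain ⟨x, hx, rfl⟩ := (hTmem y).1 hy
      exact ⟨⟨x, hx⟩, rfl⟩
    exact Finite.of_surjective _ hsurj
  have hFFS := isFFPoints_of_injective ℓ φ hφinj hφσ S hSσ T hTmem hT (hY T hTfin hTkill hT)
  subst hS
  exact hFFS

/-- Unpacking `IsFFPoints` on a submodule with the restricted action. -/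
theorem exists_hopf_of_isFFPoints (ℓ : ℕ) (S : Submodule ℤ X)
    (hS : ∀ (σ : Γℚ) (x : X), x ∈ S → σ • x ∈ S)
    (h : IsFFPoints ℓ S (fun σ x => ⟨σ • (x : X), hS σ x x.2⟩)) :
    ∃ (H : Type) (_ : CommRing H) (_ : HopfAlgebra (GaloisRep.ratLocalizedAt ℓ) H),
      Module.Finite (GaloisRep.ratLocalizedAt ℓ) H ∧ Module.Flat (GaloisRep.ratLocalizedAt ℓ) H ∧
      Coalgebra.IsCocomm (GaloisRep.ratLocalizedAt ℓ) H ∧
      ∃ e : WithConv (H →ₐ[GaloisRep.ratLocalizedAt ℓ] AlgebraicClosure ℚ) ≃ ↥S,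
        (∀ f g, e (f * g) = e f + e g) ∧
        ∀ (σ : AlgebraicClosure ℚ ≃ₐ[ℚ] AlgebraicClosure ℚ)
          (f g : WithConv (H →ₐ[GaloisRep.ratLocalizedAt ℓ] AlgebraicClosure ℚ)),
          (∀ h : H, g h = σ (f h)) → ((e g : X)) = σ • (e f : X) := by
  obtain ⟨H, i1, i2, hfin, hflat, hco, e, hadd, heq⟩ := h
  refine ⟨H, i1, i2, hfin, hflat, hco, e, hadd, fun σ f g hfg => ?_⟩
  exact congrArg (fun z : S => (z : X)) (heq σ f g hfg)

end Generic

/-! ### The modular Jacobians -/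

/-- `J₀(N)[ℓ^k]` is finite. -/
theorem finite_torsionBy (N : ℕ) [NeZero N] (ℓ k : ℕ) (hℓ : 0 < ℓ) :
    Finite (Submodule.torsionBy ℤ (JZero N) ((ℓ : ℤ) ^ k)) := by
  obtain ⟨g, -, hcard⟩ := Fermat.Agent.Gateway.Export.card_tors N
  have hpos : 0 < ℓ ^ k := pow_pos hℓ k
  have hfin : Finite (Fermat.Agent.Gateway.Export.Tors N (ℓ ^ k)) := by
    refine Nat.finite_of_card_ne_zero ?_
    rw [hcard _ hpos]
    exact (pow_pos hpos _).ne'
  refine Finite.of_injective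
    (fun x : Submodule.torsionBy ℤ (JZero N) ((ℓ : ℤ) ^ k) =>
      (⟨x.1, by
        rw [Pic0.mem_torsion]
        have := x.2
        rw [Submodule.mem_torsionBy_iff] at this
        simp only [Nat.cast_pow]
        exact this⟩ : Fermat.Agent.Gateway.Export.Tors N (ℓ ^ k))) ?_
  intro x y hxy
  exact Subtype.ext (congrArg (fun z : Fermat.Agent.Gateway.Export.Tors N (ℓ ^ k) => (z : JZero N)) hxy)

/-- The two blocks at a good level: every finite Galois-stable subgroup of `J₀(M)(ℚ̄)` killed by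
`ℓ ^ k` is the group of points of a finite flat group scheme over `ℤ_(ℓ)`. -/
theorem isFFPoints_of_blocks (hA : ATarget) (hB : ChartToFFPoints)
    (M : ℕ) [NeZero M] (ℓ : ℕ) [Fact ℓ.Prime] (hℓM : ¬ ℓ ∣ M)
    (hgood : Fermat.Agent.Gateway.Red.IsGoodLevel M ℓ)
    (T : AddSubgroup (JZero M)) [Finite T] (k : ℕ) (hTkill : ∀ x ∈ T, ℓ ^ k • x = 0)
    (hT : ∀ (σ : Γℚ) (x : JZero M), x ∈ T → σ • x ∈ T) :
    IsFFPoints ℓ T (fun σ x => ⟨σ • (x : JZero M), hT σ x x.2⟩) := by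
  have hℓ : ℓ.Prime := Fact.out
  obtain ⟨P, hP⟩ := Fermat.Agent.Lib.exists_valuationSubring_liesOverPrime (L := Qbar) ℓ hℓ
  obtain ⟨D⟩ := hA M ℓ hℓM hgood P hP T k hTkill hT
  refine isFFPoints_of_chart hB ℓ P hP T hT (fun x hx => ?_) D
  exact Fermat.Agent.Gateway.S31Red.exists_level_fixing_point
    (modularFunctionFieldFull M) (pow_pos hℓ.pos k).ne' x (hTkill x hx)

/-- **S19 from the two blocks.** -/
theorem s19_of_blocks (hA : ATarget) (hB : ChartToFFPoints)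
    (p : ℕ) [NeZero p] (ℓ : ℕ) [Fact ℓ.Prime] (hℓp : ¬ ℓ ∣ p) (k : ℕ) :
    ∃ (H : Type) (_ : CommRing H) (_ : HopfAlgebra (GaloisRep.ratLocalizedAt ℓ) H),
      Module.Finite (GaloisRep.ratLocalizedAt ℓ) H ∧ Module.Flat (GaloisRep.ratLocalizedAt ℓ) H ∧
      Coalgebra.IsCocomm (GaloisRep.ratLocalizedAt ℓ) H ∧
      ∃ e : WithConv (H →ₐ[GaloisRep.ratLocalizedAt ℓ] AlgebraicClosure ℚ) ≃
          ↥(Submodule.torsionBy ℤ (JZero p) ((ℓ : ℤ) ^ k)),
        (∀ f g, e (f * g) = e f + e g) ∧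
        ∀ (σ : AlgebraicClosure ℚ ≃ₐ[ℚ] AlgebraicClosure ℚ)
          (f g : WithConv (H →ₐ[GaloisRep.ratLocalizedAt ℓ] AlgebraicClosure ℚ)),
          (∀ h : H, g h = σ (f h)) → ((e g : JZero p)) = σ • (e f : JZero p) := by
  have hℓ : ℓ.Prime := Fact.out
  -- the good level
  obtain ⟨M, hM⟩ : ∃ M : ℕ, M = Fermat.Agent.Gateway.Red.goodLevel p ℓ := ⟨_, rfl⟩
  haveI : NeZero M := ⟨hM ▸ Fermat.Agent.Gateway.Red.goodLevel_ne_zero p ℓ⟩
  have hMor : M = Nat.lcm p 4 ∨ M = Nat.lcm p 9 := hM ▸ Fermat.Agent.Gateway.Red.goodLevel_eq p ℓ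
  have hNM : p ∣ M := Fermat.Agent.Gateway.Descent.dvd_of_eq_lcm_or hMor
  have hℓM : ¬ ℓ ∣ M := hM ▸ Fermat.Agent.Gateway.Red.not_dvd_goodLevel hℓ hℓp
  have hgood : Fermat.Agent.Gateway.Red.IsGoodLevel M ℓ :=
    hM ▸ Fermat.Agent.Gateway.Red.isGoodLevel_goodLevel p ℓ
  -- the pullback
  obtain ⟨φ, hφinj, hφσ⟩ : ∃ φ : JZero p →+ JZero M, Function.Injective φ ∧
      ∀ (σ : Γℚ) (x : JZero p), φ (σ • x) = σ • φ x :=
    ⟨Fermat.Agent.Gateway.Descent.pullbackPic hNM,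
      Fermat.Agent.Gateway.Descent.pullbackPic_injective hMor,
      fun σ x => Fermat.Agent.Gateway.Descent.pullbackPic_smul hNM σ x⟩
  have hFFS := isFFPoints_torsionBy_of_injective ℓ k φ hφinj hφσ (finite_torsionBy p ℓ k hℓ.pos)
    (fun T hTfin hTkill hT => by
      haveI := hTfin
      exact isFFPoints_of_blocks hA hB M ℓ hℓM hgood T k hTkill hT)
  exact exists_hopf_of_isFFPoints ℓ _
    (fun σ x hx => galois_smul_mem_torsionBy ℓ k σ x hx) hFFS

end Fermat.Agent.S19x.Final
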