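/-
P-S19, FINAL ASSEMBLY of stage 1, with BLOCK B plugged in (helper21).

BLOCK B is complete on main: `Alg.OrderOfGens.chartToFFPoints : S19x.ChartToFFPoints`
(`S19x/Alg/BlockBDone.lean`).  So the statement S19 follows from the target of BLOCK A alone:

`s19_of_aTarget (hA : Final.ATarget) : <frozen S19 conclusion>`.
-/
import Fermat.Agent.S19x.Final.S19OfBlocks
import Fermat.Agent.S19x.Alg.BlockBDone

set_option autoImplicit false

noncomputable section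

namespace Fermat.Agent.S19x.Final

open ModularCurve AlgebraicCurve
open Fermat.Agent.S56x.Dict.FFPoints

local notation "Qbar" => AlgebraicClosure ℚ
local notation "Γℚ" => (AlgebraicClosure ℚ ≃ₐ[ℚ] AlgebraicClosure ℚ)

/-- BLOCK A + (proven) BLOCK B at a good level: every finite Galois-stable subgroup of
`J₀(M)(ℚ̄)` killed by `ℓ ^ k` is the group of points of a finite flat group scheme over `ℤ_(ℓ)`. -/
theorem isFFPoints_of_aTarget (hA : ATarget)
    (M : ℕ) [NeZero M] (ℓ : ℕ) [Fact ℓ.Prime] (hℓM : ¬ ℓ ∣ M)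
    (hgood : Fermat.Agent.Gateway.Red.IsGoodLevel M ℓ)
    (T : AddSubgroup (JZero M)) [Finite T] (k : ℕ) (hTkill : ∀ x ∈ T, ℓ ^ k • x = 0)
    (hT : ∀ (σ : Γℚ) (x : JZero M), x ∈ T → σ • x ∈ T) :
    IsFFPoints ℓ T (fun σ x => ⟨σ • (x : JZero M), hT σ x x.2⟩) :=
  isFFPoints_of_blocks hA Fermat.Agent.S19x.Alg.OrderOfGens.chartToFFPoints M ℓ hℓM hgood T k
    hTkill hT

/-- **S19 from the target of BLOCK A.** -/
theorem s19_of_aTarget (hA : ATarget)
    (p : ℕ) [NeZero p] (ℓ : ℕ) [Fact ℓ.Prime] (hℓp : ¬ ℓ ∣ p) (k : ℕ) :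
    ∃ (H : Type) (_ : CommRing H) (_ : HopfAlgebra (GaloisRep.ratLocalizedAt ℓ) H),
      Module.Finite (GaloisRep.ratLocalizedAt ℓ) H ∧ Module.Flat (GaloisRep.ratLocalizedAt ℓ) H ∧
      Coalgebra.IsCocomm (GaloisRep.ratLocalizedAt ℓ) H ∧
      ∃ e : WithConv (H →ₐ[GaloisRep.ratLocalizedAt ℓ] AlgebraicClosure ℚ) ≃
          ↥(Submodule.torsionBy ℤ (JZero p) ((ℓ : ℤ) ^ k)),
        (∀ f g, e (f * g) = e f + e g) ∧
        ∀ (σ : AlgebraicClosure ℚ ≃ₐ[ℚ] AlgebraicClosure ℚ)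
          (f g : WithConv (H →ₐ[GaloisRep.ratLocalizedAt ℓ] AlgebraicClosure ℚ)),
          (∀ h : H, g h = σ (f h)) → ((e g : JZero p)) = σ • (e f : JZero p) :=
  s19_of_blocks hA Fermat.Agent.S19x.Alg.OrderOfGens.chartToFFPoints p ℓ hℓp k

end Fermat.Agent.S19x.Final
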