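/-
P-S19, FINAL ASSEMBLY of stage 1 from the TWO remaining leaves of BLOCK A (helper21).

Everything else is on main: BLOCK B (`Alg.OrderOfGens.chartToFFPoints`), the top of BLOCK A
(`Geo.aTarget_of`, `Geo.absTarget_of_residual`), the final glue (`Final.s19_of_aTarget`).  So

`s19_of_leaves (h1 : Geo.L1Target) (h2 : Geo.ResidualTarget) : <frozen S19 conclusion>`.

This file is also the INTEGRATION TEST of the import closure of the future `S19.lean`
(`Final/S19OfA` + `Geo/AMain` + `Geo/SumTargetDone` together).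
-/
import Fermat.Agent.S19x.Final.S19OfA
import Fermat.Agent.S19x.Geo.AMain
import Fermat.Agent.S19x.Geo.SumTargetDone

set_option autoImplicit false

noncomputable section

namespace Fermat.Agent.S19x.Final

open ModularCurve AlgebraicCurve

/-- BLOCK A from its two remaining leaves. -/
theorem aTarget_of_leaves (h1 : Fermat.Agent.S19x.Geo.L1Target)
    (h2 : Fermat.Agent.S19x.Geo.ResidualTarget) : ATarget :=
  Fermat.Agent.S19x.Geo.aTarget_of h1 (Fermat.Agent.S19x.Geo.absTarget_of_residual h2)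

/-- **S19 from the two remaining leaves of BLOCK A.** -/
theorem s19_of_leaves (h1 : Fermat.Agent.S19x.Geo.L1Target)
    (h2 : Fermat.Agent.S19x.Geo.ResidualTarget)
    (p : ℕ) [NeZero p] (ℓ : ℕ) [Fact ℓ.Prime] (hℓp : ¬ ℓ ∣ p) (k : ℕ) :
    ∃ (H : Type) (_ : CommRing H) (_ : HopfAlgebra (GaloisRep.ratLocalizedAt ℓ) H),
      Module.Finite (GaloisRep.ratLocalizedAt ℓ) H ∧ Module.Flat (GaloisRep.ratLocalizedAt ℓ) H ∧
      Coalgebra.IsCocomm (GaloisRep.ratLocalizedAt ℓ) H ∧
      ∃ e : WithConv (H →ₐ[GaloisRep.ratLocalizedAt ℓ] AlgebraicClosure ℚ) ≃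
          ↥(Submodule.torsionBy ℤ (JZero p) ((ℓ : ℤ) ^ k)),
        (∀ f g, e (f * g) = e f + e g) ∧
        ∀ (σ : AlgebraicClosure ℚ ≃ₐ[ℚ] AlgebraicClosure ℚ)
          (f g : WithConv (H →ₐ[GaloisRep.ratLocalizedAt ℓ] AlgebraicClosure ℚ)),
          (∀ h : H, g h = σ (f h)) → ((e g : JZero p)) = σ • (e f : JZero p) :=
  s19_of_aTarget (aTarget_of_leaves h1 h2) p ℓ hℓp k

end Fermat.Agent.S19x.Final
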