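/-
P-S19 stage 2, FINAL ASSEMBLY of S32 from the TWO remaining leaves of BLOCK A (helper21).

BLOCK C is closed on main: `C.S32Final.s32_of_s19` (helper55).  With `Final.s19_of_leaves`:

`s32_of_leaves (h1 : Geo.L1Target) (h2 : Geo.ResidualTarget) : <frozen S32 statement>`.

This file is also the INTEGRATION TEST of the import closure of the future `S32.lean`
(`Final/S19OfLeaves` + `C/S32Final` together).
-/
import Fermat.Agent.S19x.Final.S19OfLeaves
import Fermat.Agent.S19x.C.S32Final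

set_option autoImplicit false
set_option linter.unusedVariables false
set_option linter.unusedSectionVars false

noncomputable section

namespace Fermat.Agent.S19x.Final

variable {p : ℕ} {N : ℕ} [NeZero N] {S : Finset ℕ}
  {𝒪 : Type} [CommRing 𝒪] [IsDomain 𝒪] [IsDiscreteValuationRing 𝒪]
  [IsAdicComplete (IsLocalRing.maximalIdeal 𝒪) 𝒪]
  {θ : CuspForm.heckeAlgebra N 2 (↑S : Set ℕ) →+* IsLocalRing.ResidueField 𝒪}
  {T : Type} [CommRing T] [IsLocalRing T] [IsNoetherianRing T]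
  [IsAdicComplete (IsLocalRing.maximalIdeal T) T] [Algebra 𝒪 T] [IsLocalHom (algebraMap 𝒪 T)]
  [Module.Finite 𝒪 T] [Module.Free 𝒪 T]

/-- **S32 from the two remaining leaves of BLOCK A.** -/
theorem s32_of_leaves (h1 : Fermat.Agent.S19x.Geo.L1Target)
    (h2 : Fermat.Agent.S19x.Geo.ResidualTarget)
    [Finite (IsLocalRing.ResidueField 𝒪)] [CharZero 𝒪]
    (hp : p.Prime) (hp2 : p ≠ 2) (hp𝒪 : (p : 𝒪) ∈ IsLocalRing.maximalIdeal 𝒪) (hpN : ¬ p ∣ N)
    (hpS : p ∈ S) (hNS : ∀ q : ℕ, q.Prime → q ∣ N → q ∈ S)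
    (H : CuspForm.HeckeGaloisRepDatum N (↑S : Set ℕ) 𝒪 θ T) :
    H.ρ.IsFlatAt p :=
  haveI : Fact p.Prime := ⟨hp⟩
  Fermat.Agent.S19x.C.S32Final.s32_of_s19 hp hp𝒪 hpS hNS H
    (fun k => s19_of_leaves h1 h2 N p hpN k)

end Fermat.Agent.S19x.Final
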